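import Fermat.Agent.Gowers.Ultrafilters

/-!
# Gowers' theorem

A set which is large for the compatible ultrafilter of height `k` contains all combinations, with
one unshifted term at least, of some block sequence.
-/

set_option autoImplicit false

namespace FA.Gowers

open Filter Set

attribute [local instance] Ultrafilter.add Ultrafilter.addSemigroup

theorem tetris_iterate_min {k : ℕ} {p : Fn} (hp : HasHeight k p) (i : ℕ) :
    tetris^[min i k] p = tetris^[i] p := by
  ext x
  have := hp.1 x
  simp only [tetris_iterate_apply]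
  omega

/-- The combination of the first `n` terms with given shifts. -/
noncomputable def combination (p : ℕ → Fn) (c : ℕ → ℕ) (n : ℕ) : Fn :=
  ∑ m ∈ Finset.range n, tetris^[c m] (p m)

/-- **Large sets contain combinatorial subspaces.** -/
theorem exists_blocks {W : ℕ → Ultrafilter Fn}
    (hW : ∀ j, IsCompatible j (W j) ∧ (W (j + 1)).map tetris = W j) {k : ℕ} {A : Set Fn}
    (hA : A ∈ W k) :
    ∃ p : ℕ → Fn, (∀ n, HasHeight k (p n)) ∧
      (∀ m n, m < n → ∀ x y, p m x ≠ 0 → p n y ≠ 0 → x < y) ∧
      ∀ (c : ℕ → ℕ) (n : ℕ), (∃ m < n, c m = 0) → combination p c n ∈ A := by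
  classical
  -- the points of `A` which can be continued at every height
  let good : Set Fn := {q | q ∈ A ∧ ∀ i, i ≤ k → ∀ᶠ r in (W i : Filter Fn), q + r ∈ A}
  have hgood : good ∈ W k := by
    have h : ∀ i, i ≤ k → ∀ᶠ q in (W k : Filter Fn), ∀ᶠ r in (W i : Filter Fn), q + r ∈ A :=
      fun i hi => by
        rw [← Ultrafilter.eventually_add, (absorb hW hi).1]
        exact hA
    have h' : ∀ᶠ q in (W k : Filter Fn), ∀ i ∈ Finset.range (k + 1),
        ∀ᶠ r in (W i : Filter Fn), q + r ∈ A :=
      (eventually_all_finset _).2 fun i hi => h i (Nat.lt_succ_iff.1 (Finset.mem_range.1 hi))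
    filter_upwards [h', show A ∈ (W k : Filter Fn) from hA] with q hq hqA
    exact ⟨hqA, fun i hi => hq i (Finset.mem_range.2 (Nat.lt_succ_of_le hi))⟩
  have hgood' : ∀ q ∈ good, ∀ i, i ≤ k → ∀ᶠ r in (W i : Filter Fn), q + r ∈ good := by
    intro q hq i hi
    have h : ∀ᶠ r in (W i : Filter Fn), ∀ l ∈ Finset.range (k + 1),
        ∀ᶠ s in (W l : Filter Fn), q + r + s ∈ A := by
      refine (eventually_all_finset _).2 fun l hl => ?_
      have hl' : l ≤ k := Nat.lt_succ_iff.1 (Finset.mem_range.1 hl)
      simp only [add_assoc]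
      rw [← Ultrafilter.eventually_add (W i) (W l) fun z => q + z ∈ A]
      rcases le_total i l with h | h
      · rw [(absorb hW h).2]
        exact hq.2 l hl'
      · rw [(absorb hW h).1]
        exact hq.2 i hi
    filter_upwards [h, hq.2 i hi] with r hr hrA
    exact ⟨hrA, fun l hl => hr l (Finset.mem_range.2 (Nat.lt_succ_of_le hl))⟩
  -- the combinations which still need an unshifted term
  let pend : Set Fn := {q | ∀ᶠ r in (W k : Filter Fn), q + r ∈ good}
  have hpend0 : (0 : Fn) ∈ pend := by simpa [pend] using hgood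
  have hpend : ∀ q ∈ pend, ∀ i, i ≤ k → ∀ᶠ t in (W i : Filter Fn), q + t ∈ pend := by
    intro q hq i hi
    show ∀ᶠ t in (W i : Filter Fn), ∀ᶠ r in (W k : Filter Fn), q + t + r ∈ good
    simp only [add_assoc]
    rw [← Ultrafilter.eventually_add (W i) (W k) fun z => q + z ∈ good, (absorb hW hi).2]
    exact hq
  -- one more term
  have hstep : ∀ (n : ℕ) (C D : Finset Fn), ∃ p, (↑C ⊆ good → ↑D ⊆ pend →
      HasHeight k p ∧ Above n p ∧
      (∀ q ∈ C, ∀ i, i ≤ k → q + tetris^[i] p ∈ good) ∧
      ∀ q ∈ D, q + p ∈ good ∧ ∀ i, i ≤ k → q + tetris^[i] p ∈ pend) := fun n C D => by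
    by_cases hCD : ↑C ⊆ good ∧ ↑D ⊆ pend
    swap
    · exact ⟨0, fun h1 h2 => absurd ⟨h1, h2⟩ hCD⟩
    have hshift : ∀ i, i ≤ k → (W k).map tetris^[i] = W (k - i) := fun i hi => by
      have := map_iterate hW i (k - i)
      rwa [Nat.sub_add_cancel hi] at this
    have hev : ∀ (Q : Fn → Prop) i, i ≤ k → (∀ᶠ r in (W (k - i) : Filter Fn), Q r) →
        ∀ᶠ p in (W k : Filter Fn), Q (tetris^[i] p) := fun Q i hi h => by
      rwa [← hshift i hi, Ultrafilter.coe_map, eventually_map] at h
    have h1 : ∀ᶠ p in (W k : Filter Fn), ∀ q ∈ C, ∀ i ∈ Finset.range (k + 1),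
        q + tetris^[i] p ∈ good :=
      (eventually_all_finset _).2 fun q hq => (eventually_all_finset _).2 fun i hi =>
        hev _ i (Nat.lt_succ_iff.1 (Finset.mem_range.1 hi))
          (hgood' q (hCD.1 hq) _ (Nat.sub_le k i))
    have h2 : ∀ᶠ p in (W k : Filter Fn), ∀ q ∈ D, q + p ∈ good ∧
        ∀ i ∈ Finset.range (k + 1), q + tetris^[i] p ∈ pend :=
      (eventually_all_finset _).2 fun q hq => Filter.Eventually.and (hCD.2 hq)
        ((eventually_all_finset _).2 fun i hi =>
          hev _ i (Nat.lt_succ_iff.1 (Finset.mem_range.1 hi))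
            (hpend q (hCD.2 hq) _ (Nat.sub_le k i)))
    obtain ⟨p, hp1, hp2, hp3, hp4⟩ :=
      (((hW k).1.1.1).and ((eventually_above (hW k).1.1 n).and (h1.and h2))).exists
    exact ⟨p, fun _ _ => ⟨hp1, hp2,
      fun q hq i hi => hp3 q hq i (Finset.mem_range.2 (Nat.lt_succ_of_le hi)),
      fun q hq => ⟨(hp4 q hq).1,
        fun i hi => (hp4 q hq).2 i (Finset.mem_range.2 (Nat.lt_succ_of_le hi))⟩⟩⟩
  choose term hterm using hstep
  -- the state: a bound for the supports, the combinations complete and pending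
  let nb : Fn → ℕ := fun p => p.support.sup id
  let upd : ℕ × Finset Fn × Finset Fn → ℕ × Finset Fn × Finset Fn := fun s =>
    let p := term s.1 s.2.1 s.2.2
    (max s.1 (nb p),
      ((s.2.1 ×ˢ Finset.range (k + 1)).image fun x => x.1 + tetris^[x.2] p) ∪
        s.2.2.image (fun q => q + p),
      (s.2.2 ×ˢ Finset.Icc 1 k).image (fun x => x.1 + tetris^[x.2] p) ∪ s.2.2)
  let st : ℕ → ℕ × Finset Fn × Finset Fn := fun n =>
    Nat.rec (0, ∅, {0}) (fun _ s => upd s) n
  have hinv : ∀ n, ↑(st n).2.1 ⊆ good ∧ ↑(st n).2.2 ⊆ pend := by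
    intro n
    induction n with
    | zero => exact ⟨by simp [st], by simpa [st] using hpend0⟩
    | succ n ih =>
      obtain ⟨-, -, h3, h4⟩ := hterm (st n).1 _ _ ih.1 ih.2
      constructor
      · intro z hz
        rcases Finset.mem_union.1 (Finset.mem_coe.1 hz) with hz | hz
        · obtain ⟨⟨q, i⟩, hqi, rfl⟩ := Finset.mem_image.1 hz
          rw [Finset.mem_product, Finset.mem_range] at hqi
          exact h3 q hqi.1 i (Nat.lt_succ_iff.1 hqi.2)
        · obtain ⟨q, hq, rfl⟩ := Finset.mem_image.1 hz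
          exact (h4 q hq).1
      · intro z hz
        rcases Finset.mem_union.1 (Finset.mem_coe.1 hz) with hz | hz
        · obtain ⟨⟨q, i⟩, hqi, rfl⟩ := Finset.mem_image.1 hz
          rw [Finset.mem_product, Finset.mem_Icc] at hqi
          exact (h4 q hqi.1).2 i hqi.2.2
        · exact ih.2 hz
  let p : ℕ → Fn := fun n => term (st n).1 (st n).2.1 (st n).2.2
  have hp : ∀ n, HasHeight k (p n) ∧ Above (st n).1 (p n) := fun n => by
    obtain ⟨h1, h2, -⟩ := hterm (st n).1 _ _ (hinv n).1 (hinv n).2
    exact ⟨h1, h2⟩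
  refine ⟨p, fun n => (hp n).1, fun m n hmn x y hx hy => ?_, ?_⟩
  · have hle : x ≤ (st n).1 := by
      have h0 : x ≤ (st (m + 1)).1 := le_max_of_le_right
        (Finset.le_sup (f := id) (Finsupp.mem_support_iff.2 hx))
      have hmono : Monotone fun n => (st n).1 := monotone_nat_of_le_succ fun n => le_max_left _ _
      exact h0.trans (hmono hmn)
    by_contra! hyx
    exact hy ((hp n).2 y (hyx.trans hle))
  intro c n hn
  have key : ∀ n, ((∃ m < n, c m = 0) → combination p c n ∈ (st n).2.1) ∧
      ((¬∃ m < n, c m = 0) → combination p c n ∈ (st n).2.2) := by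
    intro n
    induction n with
    | zero => exact ⟨fun ⟨m, hm, _⟩ => absurd hm (Nat.not_lt_zero m), fun _ => by
        simp [combination, st]⟩
    | succ n ih =>
      have hsum : combination p c (n + 1) = combination p c n + tetris^[min (c n) k] (p n) := by
        rw [tetris_iterate_min (hp n).1, combination, Finset.sum_range_succ]
        rfl
      constructor
      · intro hex
        by_cases hbefore : ∃ m < n, c m = 0
        · rw [hsum]
          exact Finset.mem_union_left _ (Finset.mem_image.2 ⟨(_, min (c n) k),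
            Finset.mem_product.2 ⟨ih.1 hbefore,
              Finset.mem_range.2 (Nat.lt_succ_of_le (min_le_right _ _))⟩, rfl⟩)
        · obtain ⟨m, hm, hcm⟩ := hex
          obtain rfl : m = n := (Nat.lt_succ_iff.1 hm).eq_or_lt.resolve_right fun h =>
            hbefore ⟨m, h, hcm⟩
          rw [hsum, hcm, Nat.zero_min]
          exact Finset.mem_union_right _ (Finset.mem_image.2 ⟨_, ih.2 hbefore, rfl⟩)
      · intro hnot
        have hbefore : ¬∃ m < n, c m = 0 := fun ⟨m, hm, h⟩ =>
          hnot ⟨m, hm.trans n.lt_succ_self, h⟩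
        have hcn : c n ≠ 0 := fun h => hnot ⟨n, n.lt_succ_self, h⟩
        rw [hsum]
        rcases Nat.eq_zero_or_pos k with hk | hk
        · have h0 : tetris^[min (c n) k] (p n) = 0 := by
            ext x
            have := (hp n).1.1 x
            simp only [tetris_iterate_apply, Finsupp.coe_zero, Pi.zero_apply]
            omega
          rw [h0, add_zero]
          exact Finset.mem_union_right _ (ih.2 hbefore)
        · exact Finset.mem_union_left _ (Finset.mem_image.2 ⟨(_, min (c n) k),
            Finset.mem_product.2 ⟨ih.2 hbefore, Finset.mem_Icc.2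
              ⟨by omega, min_le_right _ _⟩⟩, rfl⟩)
  exact ((hinv n).1 ((key n).1 hn)).1

/-- **Gowers' theorem.** For every finite colouring some block sequence of height `k` has all its
combinations with an unshifted term of one colour. -/
theorem exists_monochromatic_blocks (k : ℕ) {C : Type*} [Finite C] (f : Fn → C) :
    ∃ (col : C) (p : ℕ → Fn), (∀ n, HasHeight k (p n)) ∧
      (∀ m n, m < n → ∀ x y, p m x ≠ 0 → p n y ≠ 0 → x < y) ∧
      ∀ (c : ℕ → ℕ) (n : ℕ), (∃ m < n, c m = 0) → f (combination p c n) = col := by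
  obtain ⟨W, hW⟩ := exists_sequence
  obtain ⟨col, -, hcol⟩ := Ultrafilter.eq_pure_of_finite_mem (f := (W k).map f) finite_univ univ_mem
  have hA : f ⁻¹' {col} ∈ W k := by
    rw [← Ultrafilter.mem_map, hcol]
    exact mem_pure.2 rfl
  obtain ⟨p, h1, h2, h3⟩ := exists_blocks hW hA
  exact ⟨col, p, h1, h2, fun c n h => h3 c n h⟩

end FA.Gowers
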