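import Fermat.Agent.Gowers.BlockSequence
import Mathlib.Topology.ContinuousMap.ZeroAtInfty
import Mathlib.Analysis.SpecificLimits.Basic
import Mathlib.Topology.MetricSpace.Lipschitz

/-!
# Oscillation stability on the positive sphere

Powers of a number just below one turn functions of height `k` into a net of the positive sphere
of `c₀`, and shifts into multiplications; so Gowers' theorem makes a Lipschitz function nearly
constant on the positive sphere of some block subspace.
-/

set_option autoImplicit false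

namespace FA.Gowers

open Filter Set
open scoped ZeroAtInfty Topology

/-- A finitely supported sequence as an element of `c₀`. -/
noncomputable def toCZero (g : ℕ →₀ ℝ) : C₀(ℕ, ℝ) where
  toFun := g
  continuous_toFun := continuous_of_discreteTopology
  zero_at_infty' := by
    refine tendsto_const_nhds.congr' ?_
    rw [Filter.cocompact_eq_cofinite]
    have h : ∀ᶠ x in Filter.cofinite, x ∉ g.support := g.support.finite_toSet.compl_mem_cofinite
    exact h.mono fun x hx =>
      (Finsupp.notMem_support_iff.1 hx).symm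

theorem toCZero_apply (g : ℕ →₀ ℝ) (x : ℕ) : toCZero g x = g x := rfl

/-- The net point of a function. -/
noncomputable def realise (δ : ℝ) (k : ℕ) (p : Fn) : C₀(ℕ, ℝ) :=
  toCZero (p.mapRange (fun v => if v = 0 then 0 else δ ^ (k - v)) (by simp))

theorem realise_apply (δ : ℝ) (k : ℕ) (p : Fn) (x : ℕ) :
    realise δ k p x = if p x = 0 then 0 else δ ^ (k - p x) := by
  rw [realise, toCZero_apply, Finsupp.mapRange_apply]

theorem sum_apply (g : ℕ → C₀(ℕ, ℝ)) (n x : ℕ) :
    (∑ m ∈ Finset.range n, g m) x = ∑ m ∈ Finset.range n, g m x := by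
  induction n with
  | zero => simp
  | succ n ih => simp [Finset.sum_range_succ, ih]

theorem norm_le_of_forall {g : C₀(ℕ, ℝ)} {r : ℝ} (hr : 0 ≤ r) (h : ∀ x, |g x| ≤ r) : ‖g‖ ≤ r := by
  rw [← ZeroAtInftyContinuousMap.norm_toBCF_eq_norm]
  exact (BoundedContinuousFunction.norm_le hr).2 h

theorem abs_apply_le_norm (g : C₀(ℕ, ℝ)) (x : ℕ) : |g x| ≤ ‖g‖ := by
  rw [← ZeroAtInftyContinuousMap.norm_toBCF_eq_norm]
  exact g.toBCF.norm_coe_le_norm x

/-- Every coefficient is near zero or a power. -/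
theorem exists_power_near {δ a : ℝ} (hδ : 0 < δ) (hδ1 : δ < 1) (ha1 : a ≤ 1) (k : ℕ) :
    (δ ^ k < a → ∃ i < k, |a - δ ^ i| ≤ 1 - δ ∧ (a = 1 → i = 0)) := by
  classical
  intro hk
  have hex : ∃ i, δ ^ (i + 1) < a := by
    rcases k with _ | k
    · exact absurd ha1 (by simpa using hk)
    · exact ⟨k, hk⟩
  refine ⟨Nat.find hex, ?_, ?_, fun h => (Nat.find_eq_zero hex).2 (by simpa [h] using hδ1)⟩
  · by_contra! hge
    rcases k with _ | k
    · exact absurd ha1 (by simpa using hk)
    · exact Nat.find_min hex (show k < Nat.find hex by omega) hk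
  · have hup : a ≤ δ ^ Nat.find hex := by
      rcases h : Nat.find hex with _ | i
      · simpa using ha1
      · exact not_lt.1 (Nat.find_min hex (show i < Nat.find hex by omega))
    have hlow := Nat.find_spec hex
    rw [pow_succ] at hlow
    have hp1 : δ ^ Nat.find hex ≤ 1 := pow_le_one₀ hδ.le hδ1.le
    have hp0 : 0 < δ ^ Nat.find hex := pow_pos hδ _
    rw [abs_of_nonpos (by linarith)]
    nlinarith

/-- The shift for a coefficient. -/
theorem exists_shift {δ η a : ℝ} {k : ℕ} (hδ : 0 < δ) (hδ1 : δ < 1) (hη : 1 - δ ≤ η)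
    (hk : δ ^ k ≤ η) (ha : 0 ≤ a) (ha1 : a ≤ 1) :
    ∃ i, (a = 1 → i = 0) ∧ ∀ v : ℕ, v ≠ 0 → v ≤ k →
      |a * δ ^ (k - v) - (if v - i = 0 then 0 else δ ^ (k - (v - i)))| ≤ 2 * η := by
  have hpow : ∀ m : ℕ, 0 < δ ^ m ∧ δ ^ m ≤ 1 := fun m => ⟨pow_pos hδ m, pow_le_one₀ hδ.le hδ1.le⟩
  by_cases hak : δ ^ k < a
  · obtain ⟨i, -, hi, hi1⟩ := exists_power_near hδ hδ1 ha1 k hak
    refine ⟨i, hi1, fun v _ hvk => ?_⟩
    have h1 := abs_le.1 hi
    by_cases hvi : v - i = 0
    · rw [if_pos hvi, sub_zero, abs_of_nonneg (by positivity)]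
      have h2 : δ ^ i * δ ^ (k - v) ≤ δ ^ k := by
        rw [← pow_add]
        exact pow_le_pow_of_le_one hδ.le hδ1.le (by omega)
      nlinarith [hpow (k - v)]
    · rw [if_neg hvi, show k - (v - i) = i + (k - v) by omega, pow_add,
        show a * δ ^ (k - v) - δ ^ i * δ ^ (k - v) = (a - δ ^ i) * δ ^ (k - v) by ring, abs_mul,
        abs_of_pos (hpow (k - v)).1]
      nlinarith [abs_nonneg (a - δ ^ i), hpow (k - v)]
  · refine ⟨k, fun h => ?_, fun v _ hvk => ?_⟩
    · rcases k with _ | k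
      · rfl
      · exact absurd (h ▸ pow_lt_one₀ hδ.le hδ1 (Nat.succ_ne_zero k)) hak
    · rw [if_pos (Nat.sub_eq_zero_of_le hvk), sub_zero, abs_of_nonneg (by positivity)]
      nlinarith [hpow (k - v), not_lt.1 hak]

/-- The positive sphere of the combinations of a sequence. -/
def positiveSphere (e : ℕ → C₀(ℕ, ℝ)) : Set C₀(ℕ, ℝ) :=
  {x | ∃ (n : ℕ) (a : ℕ → ℝ), (∀ m, 0 ≤ a m ∧ a m ≤ 1) ∧ (∃ m < n, a m = 1) ∧
    x = ∑ m ∈ Finset.range n, a m • e m}

/-- **Oscillation stability.** -/
theorem exists_block_sequence_small_oscillation (f : C₀(ℕ, ℝ) → ℝ) {L : NNReal}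
    (hf : LipschitzWith L f) {ε : ℝ} (hε : 0 < ε) :
    ∃ e : ℕ → C₀(ℕ, ℝ), (∀ n, ‖e n‖ = 1 ∧ (∀ x, 0 ≤ e n x) ∧ {x | e n x ≠ 0}.Finite) ∧
      (∀ m n, m < n → ∀ x y, e m x ≠ 0 → e n y ≠ 0 → x < y) ∧
      ∀ x ∈ closure (positiveSphere e), ∀ y ∈ closure (positiveSphere e), |f x - f y| ≤ ε := by
  classical
  let η : ℝ := min (1 / 2) (ε / (2 * (4 * L + 1)))
  have hη0 : 0 < η := lt_min (by norm_num) (by positivity)
  let δ : ℝ := 1 - η
  have hδ0 : 0 < δ := by
    have := min_le_left (1 / 2 : ℝ) (ε / (2 * (4 * L + 1)))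
    simp only [δ, η]
    linarith
  have hδ1 : δ < 1 := by simp only [δ]; linarith
  obtain ⟨k₀, hk₀⟩ := exists_pow_lt_of_lt_one hη0 hδ1
  let k := k₀ + 1
  have hk : δ ^ k ≤ η := by
    refine le_trans ?_ hk₀.le
    exact pow_le_pow_of_le_one hδ0.le hδ1.le (Nat.le_succ _)
  -- colour by the value up to a half of `ε`
  let M := ⌊4 * (L : ℝ) / ε⌋₊
  let colour : Fn → Fin (M + 1) := fun q =>
    ⟨min ⌊2 * (f (realise δ k q) - (f 0 - L)) / ε⌋₊ M, Nat.lt_succ_of_le (min_le_right _ _)⟩
  obtain ⟨col, p, hp, hblock, hmono⟩ := exists_monochromatic_blocks k colour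
  have hval : ∀ q x, 0 ≤ realise δ k q x ∧ realise δ k q x ≤ 1 := fun q x => by
    rw [realise_apply]
    split_ifs
    · exact ⟨le_rfl, zero_le_one⟩
    · exact ⟨(pow_pos hδ0 _).le, pow_le_one₀ hδ0.le hδ1.le⟩
  have hnorm : ∀ q, ‖realise δ k q‖ ≤ 1 := fun q =>
    norm_le_of_forall zero_le_one fun x => abs_le.2 ⟨by linarith [(hval q x).1], (hval q x).2⟩
  have hsame : ∀ q q', colour q = col → colour q' = col →
      |f (realise δ k q) - f (realise δ k q')| ≤ ε / 2 := by
    have hrange : ∀ q, 0 ≤ f (realise δ k q) - (f 0 - L) ∧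
        f (realise δ k q) - (f 0 - L) ≤ 2 * L := fun q => by
      have h := abs_le.1 ((Real.dist_eq _ _).symm.le.trans
        ((hf.dist_le_mul (realise δ k q) 0).trans_eq (by rw [dist_zero_right])))
      have hL : (L : ℝ) * ‖realise δ k q‖ ≤ L := mul_le_of_le_one_right L.2 (hnorm q)
      exact ⟨by linarith [h.1], by linarith [h.2]⟩
    have hfloor : ∀ q, (colour q).1 = ⌊2 * (f (realise δ k q) - (f 0 - L)) / ε⌋₊ := fun q =>
      min_eq_left (Nat.floor_mono (by
        rw [div_le_div_iff_of_pos_right hε]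
        linarith [(hrange q).2]))
    intro q q' h h'
    have he := (hfloor q).symm.trans ((congrArg Fin.val (h.trans h'.symm)).trans (hfloor q'))
    have hpos : ∀ q, 0 ≤ 2 * (f (realise δ k q) - (f 0 - L)) / ε := fun q =>
      div_nonneg (by linarith [(hrange q).1]) hε.le
    have h1 := Nat.floor_le (hpos q)
    have h2 := Nat.lt_floor_add_one (2 * (f (realise δ k q) - (f 0 - L)) / ε)
    have h3 := Nat.floor_le (hpos q')
    have h4 := Nat.lt_floor_add_one (2 * (f (realise δ k q') - (f 0 - L)) / ε)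
    rw [he] at h1 h2
    rw [le_div_iff₀ hε] at h1 h3
    rw [div_lt_iff₀ hε] at h2 h4
    exact abs_le.2 ⟨by linarith, by linarith⟩
  have hne : ∀ n x, realise δ k (p n) x ≠ 0 → p n x ≠ 0 := fun n x h h' =>
    h (by rw [realise_apply, if_pos h'])
  refine ⟨fun n => realise δ k (p n), fun n => ⟨?_, fun x => (hval _ x).1, ?_⟩,
    fun m n hmn x y hx hy => hblock m n hmn x y (hne m x hx) (hne n y hy), ?_⟩
  · obtain ⟨x, hx⟩ := (hp n).2.resolve_left (Nat.succ_ne_zero k₀)
    refine le_antisymm (hnorm _) (le_trans (le_of_eq ?_) (abs_apply_le_norm _ x))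
    simp [realise_apply, hx, k]
  · exact (p n).support.finite_toSet.subset fun x hx => Finsupp.mem_support_iff.2 (hne n x hx)
  -- a point of the sphere is near the net
  have hnear : ∀ z ∈ positiveSphere fun n => realise δ k (p n),
      ∃ q, colour q = col ∧ dist z (realise δ k q) ≤ 2 * η := by
    rintro _ ⟨n, a, ha, ⟨m₀, hm₀, ham₀⟩, rfl⟩
    choose c hc1 hc using fun m => exists_shift (η := η) (k := k) hδ0 hδ1 (by simp [δ]) hk
      (ha m).1 (ha m).2
    refine ⟨combination p c n, hmono c n ⟨m₀, hm₀, hc1 m₀ ham₀⟩, ?_⟩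
    rw [dist_eq_norm]
    refine norm_le_of_forall (by linarith) fun x => ?_
    rw [ZeroAtInftyContinuousMap.sub_apply, sum_apply, realise_apply]
    simp only [ZeroAtInftyContinuousMap.smul_apply, smul_eq_mul, realise_apply, combination,
      Finsupp.finsetSum_apply, tetris_iterate_apply]
    by_cases hex : ∃ m < n, p m x ≠ 0
    · obtain ⟨m, hm, hmx⟩ := hex
      have hzero : ∀ m' ∈ Finset.range n, m' ≠ m → p m' x = 0 := fun m' _ hne' => by
        by_contra h
        rcases lt_or_gt_of_ne hne' with h' | h'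
        · exact (hblock _ _ h' x x h hmx).false
        · exact (hblock _ _ h' x x hmx h).false
      rw [Finset.sum_eq_single_of_mem m (Finset.mem_range.2 hm) fun m' h1 h2 => by
          simp [hzero m' h1 h2],
        Finset.sum_eq_single_of_mem m (Finset.mem_range.2 hm) fun m' h1 h2 => by
          simp [hzero m' h1 h2], if_neg hmx]
      exact hc m _ hmx ((hp m).1 x)
    · push Not at hex
      rw [Finset.sum_eq_zero fun m hm => by simp [hex m (Finset.mem_range.1 hm)],
        Finset.sum_eq_zero fun m hm => by simp [hex m (Finset.mem_range.1 hm)]]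
      simp [hη0.le]
  have hclose : ∀ z ∈ positiveSphere (fun n => realise δ k (p n)),
      ∀ z' ∈ positiveSphere (fun n => realise δ k (p n)), |f z - f z'| ≤ ε := by
    intro z hz z' hz'
    obtain ⟨q, hq, hzq⟩ := hnear z hz
    obtain ⟨q', hq', hzq'⟩ := hnear z' hz'
    have hL : 4 * (L : ℝ) * η ≤ ε / 2 := by
      refine le_trans (mul_le_mul_of_nonneg_left (min_le_right _ _) (by positivity)) ?_
      rw [mul_div_assoc', div_le_iff₀ (by positivity)]
      nlinarith [L.2]
    have h1 := (hf.dist_le_mul z (realise δ k q)).trans (mul_le_mul_of_nonneg_left hzq L.2)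
    have h2 := (hf.dist_le_mul z' (realise δ k q')).trans (mul_le_mul_of_nonneg_left hzq' L.2)
    rw [Real.dist_eq, abs_le] at h1 h2
    have h3 := abs_le.1 (hsame q q' hq hq')
    exact abs_le.2 ⟨by linarith, by linarith⟩
  intro x hx y hy
  have hclosed : IsClosed {q : C₀(ℕ, ℝ) × C₀(ℕ, ℝ) | |f q.1 - f q.2| ≤ ε} :=
    isClosed_le ((hf.continuous.comp continuous_fst).sub (hf.continuous.comp continuous_snd)).abs
      continuous_const
  have hsub : positiveSphere (fun n => realise δ k (p n)) ×ˢ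
      positiveSphere (fun n => realise δ k (p n)) ⊆ {q | |f q.1 - f q.2| ≤ ε} :=
    fun q hq => hclose _ hq.1 _ hq.2
  have := closure_minimal hsub hclosed
  rw [closure_prod_eq] at this
  exact this (a := (x, y)) ⟨hx, hy⟩

end FA.Gowers
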