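import Mathlib.Combinatorics.Hindman
import Mathlib.Data.Finsupp.Basic
import Mathlib.Order.Filter.Ultrafilter.Basic

/-!
# Ultrafilters compatible with the tetris map

On the finitely supported functions from the natural numbers to themselves the tetris map lowers
each value by one.  For each height there is an idempotent ultrafilter at infinity on the functions
of that height, the tetris map sending it to the one of the height below, which it absorbs.
-/

set_option autoImplicit false

namespace FA.Gowers

open Filter Set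

attribute [local instance] Ultrafilter.add Ultrafilter.addSemigroup

/-- Finitely supported functions. -/
abbrev Fn : Type := ℕ →₀ ℕ

/-- All values are at most `j`, and `j` is one if it is not zero. -/
def HasHeight (j : ℕ) (p : Fn) : Prop :=
  (∀ x, p x ≤ j) ∧ (j = 0 ∨ ∃ x, p x = j)

/-- The function vanishes up to `n`. -/
def Above (n : ℕ) (p : Fn) : Prop :=
  ∀ x ≤ n, p x = 0

/-- No point is in both supports. -/
def Apart (p q : Fn) : Prop :=
  ∀ x, p x = 0 ∨ q x = 0

/-- The tetris map. -/
noncomputable def tetris (p : Fn) : Fn :=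
  p.mapRange (fun v => v - 1) rfl

theorem tetris_apply (p : Fn) (x : ℕ) : tetris p x = p x - 1 :=
  Finsupp.mapRange_apply (hf := rfl)

theorem tetris_iterate_apply (i : ℕ) (p : Fn) (x : ℕ) : (tetris^[i]) p x = p x - i := by
  induction i with
  | zero => rfl
  | succ i ih => rw [Function.iterate_succ_apply', tetris_apply, ih, Nat.sub_sub]

theorem tetris_add {p q : Fn} (h : Apart p q) : tetris (p + q) = tetris p + tetris q := by
  ext x
  simp only [Finsupp.add_apply, tetris_apply]
  rcases h x with h | h <;> simp [h]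

theorem HasHeight.add {i j : ℕ} {p q : Fn} (hp : HasHeight i p) (hq : HasHeight j q)
    (h : Apart p q) : HasHeight (max i j) (p + q) := by
  refine ⟨fun x => ?_, ?_⟩
  · rw [Finsupp.add_apply]
    rcases h x with h | h
    · rw [h, zero_add]
      exact (hq.1 x).trans (le_max_right _ _)
    · rw [h, add_zero]
      exact (hp.1 x).trans (le_max_left _ _)
  · rcases le_total i j with hij | hij
    · rw [max_eq_right hij]
      refine hq.2.imp_right fun ⟨x, hx⟩ => ⟨x, ?_⟩
      rcases h x with h | h
      · simp [h, hx]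
      · have := (hp.1 x).trans hij
        simp only [Finsupp.add_apply, h, add_zero]
        omega
    · rw [max_eq_left hij]
      refine hp.2.imp_right fun ⟨x, hx⟩ => ⟨x, ?_⟩
      rcases h x with h | h
      · have := (hq.1 x).trans hij
        simp only [Finsupp.add_apply, h, zero_add]
        omega
      · simp [h, hx]

theorem Above.mono {m n : ℕ} {p : Fn} (h : Above n p) (hmn : m ≤ n) : Above m p :=
  fun x hx => h x (hx.trans hmn)

theorem exists_bound (p : Fn) : ∃ n, ∀ x, n < x → p x = 0 :=
  ⟨p.support.sup id, fun _ hx => Finsupp.notMem_support_iff.1 fun h =>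
    (Finset.le_sup (f := id) h).not_gt hx⟩

/-- Ultrafilters at infinity on the functions of height `j`. -/
def space (j : ℕ) : Set (Ultrafilter Fn) :=
  {U | ∀ᶠ p in (U : Filter Fn), HasHeight j p} ∩ ⋂ n, {U | ∀ᶠ p in (U : Filter Fn), Above n p}

theorem isClosed_space (j : ℕ) : IsClosed (space j) :=
  (ultrafilter_isClosed_basic _).inter (isClosed_iInter fun _ => ultrafilter_isClosed_basic _)

theorem eventually_above {j : ℕ} {U : Ultrafilter Fn} (hU : U ∈ space j) (n : ℕ) :
    ∀ᶠ p in (U : Filter Fn), Above n p :=
  mem_iInter.1 hU.2 n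

theorem eventually_apart {j : ℕ} {U : Ultrafilter Fn} (hU : U ∈ space j) (p : Fn) :
    ∀ᶠ q in (U : Filter Fn), Apart p q := by
  obtain ⟨n, hn⟩ := exists_bound p
  filter_upwards [eventually_above hU n] with q hq x
  rcases le_or_gt x n with h | h
  exacts [.inr (hq x h), .inl (hn x h)]

theorem add_mem_space {i j : ℕ} {U V : Ultrafilter Fn} (hU : U ∈ space i) (hV : V ∈ space j) :
    U + V ∈ space (max i j) := by
  refine ⟨?_, mem_iInter.2 fun n => ?_⟩
  · rw [mem_ofPred_eq, Ultrafilter.eventually_add]
    filter_upwards [hU.1] with p hp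
    filter_upwards [hV.1, eventually_apart hV p] with q hq hpq
    exact hp.add hq hpq
  · rw [mem_ofPred_eq, Ultrafilter.eventually_add]
    filter_upwards [eventually_above hU n] with p hp
    filter_upwards [eventually_above hV n] with q hq x hx
    simp [hp x hx, hq x hx]

theorem map_tetris_mem_space {j : ℕ} {U : Ultrafilter Fn} (hU : U ∈ space (j + 1)) :
    U.map tetris ∈ space j := by
  refine ⟨?_, mem_iInter.2 fun n => ?_⟩
  · rw [mem_ofPred_eq, Ultrafilter.coe_map, eventually_map]
    filter_upwards [hU.1] with p hp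
    refine ⟨fun x => ?_, .inr ?_⟩
    · have := hp.1 x
      rw [tetris_apply]
      omega
    · obtain ⟨x, hx⟩ := hp.2.resolve_left (Nat.succ_ne_zero j)
      exact ⟨x, by rw [tetris_apply, hx, Nat.add_sub_cancel]⟩
  · rw [mem_ofPred_eq, Ultrafilter.coe_map, eventually_map]
    filter_upwards [eventually_above hU n] with p hp x hx
    simp [tetris_apply, hp x hx]

theorem pure_zero_mem_space : (pure 0 : Ultrafilter Fn) ∈ space 0 :=
  ⟨show HasHeight 0 (0 : Fn) from ⟨fun _ => le_rfl, .inl rfl⟩,
    mem_iInter.2 fun n => show Above n (0 : Fn) from fun _ _ => rfl⟩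

theorem map_tetris_add {i j : ℕ} {U V : Ultrafilter Fn} (_hU : U ∈ space i) (hV : V ∈ space j) :
    (U + V).map tetris = U.map tetris + V.map tetris := by
  refine Ultrafilter.coe_inj.1 (Filter.ext' fun P => ?_)
  rw [Ultrafilter.eventually_add, Ultrafilter.coe_map, Ultrafilter.coe_map, Ultrafilter.coe_map,
    eventually_map, eventually_map, Ultrafilter.eventually_add]
  refine eventually_congr (Eventually.of_forall fun p => ?_)
  rw [eventually_map]
  exact eventually_congr ((eventually_apart hV p).mono fun q hq => by rw [tetris_add hq])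

/-- An idempotent which absorbs its image. -/
def IsCompatible (j : ℕ) (U : Ultrafilter Fn) : Prop :=
  U ∈ space j ∧ U + U = U ∧ U + U.map tetris = U ∧ U.map tetris + U = U

theorem pure_zero_add (U : Ultrafilter Fn) : (pure 0 : Ultrafilter Fn) + U = U :=
  Ultrafilter.coe_inj.1 (Filter.ext' fun P => by simp [Ultrafilter.eventually_add])

theorem add_pure_zero (U : Ultrafilter Fn) : U + (pure 0 : Ultrafilter Fn) = U :=
  Ultrafilter.coe_inj.1 (Filter.ext' fun P => by simp [Ultrafilter.eventually_add])

theorem isCompatible_zero : IsCompatible 0 (pure 0) := by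
  have h : (pure 0 : Ultrafilter Fn).map tetris = pure 0 := by
    rw [Ultrafilter.map_pure, show tetris 0 = 0 by ext x; simp [tetris_apply]]
  refine ⟨pure_zero_mem_space, pure_zero_add _, ?_, ?_⟩ <;> rw [h, pure_zero_add]

/-- Every ultrafilter of one height is the image of one of the next height. -/
theorem exists_lift {j : ℕ} {U : Ultrafilter Fn} (hU : U ∈ space j) :
    ∃ V ∈ space (j + 1), V.map tetris = U := by
  rcases Nat.eq_zero_or_pos j with rfl | hj
  · obtain ⟨_, rfl, hU'⟩ := U.eq_pure_of_finite_mem (finite_singleton (0 : Fn))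
      (Filter.mem_of_superset hU.1 fun p hp => show p = 0 from
        Finsupp.ext fun x => Nat.le_zero.1 (hp.1 x))
    refine ⟨(hyperfilter ℕ).map fun n => Finsupp.single n 1, ⟨?_, mem_iInter.2 fun n => ?_⟩, ?_⟩
    · rw [mem_ofPred_eq, Ultrafilter.coe_map, eventually_map]
      exact Eventually.of_forall fun n => ⟨fun x => by
        rw [Finsupp.single_apply]; split_ifs <;> omega, .inr ⟨n, by simp⟩⟩
    · rw [mem_ofPred_eq, Ultrafilter.coe_map, eventually_map]
      refine Filter.mem_of_superset (hyperfilter_le_cofinite (finite_le_nat n).compl_mem_cofinite)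
        fun m (hm : ¬m ≤ n) x hx => ?_
      rw [Finsupp.single_apply, if_neg (by omega)]
    · rw [Ultrafilter.map_map, hU']
      refine Ultrafilter.coe_inj.1 (Filter.ext' fun P => ?_)
      have : ∀ n : ℕ, tetris (Finsupp.single n 1) = 0 := fun n => by
        ext x
        rw [tetris_apply, Finsupp.single_apply]
        split_ifs <;> simp
      simp [this]
  · let up : Fn → Fn := fun p => p.mapRange (fun v => if v = 0 then 0 else v + 1) rfl
    refine ⟨U.map up, ⟨?_, mem_iInter.2 fun n => ?_⟩, ?_⟩
    · rw [mem_ofPred_eq, Ultrafilter.coe_map, eventually_map]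
      filter_upwards [hU.1] with p hp
      refine ⟨fun x => ?_, .inr ?_⟩
      · have := hp.1 x
        simp only [up, Finsupp.mapRange_apply]
        split_ifs <;> omega
      · obtain ⟨x, hx⟩ := hp.2.resolve_left hj.ne'
        exact ⟨x, by simp [up, hx, hj.ne']⟩
    · rw [mem_ofPred_eq, Ultrafilter.coe_map, eventually_map]
      filter_upwards [eventually_above hU n] with p hp x hx
      simp [up, hp x hx]
    · rw [Ultrafilter.map_map]
      have : tetris ∘ up = id := funext fun p => by
        ext x
        simp only [Function.comp_apply, tetris_apply, up, Finsupp.mapRange_apply, id_eq]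
        split_ifs <;> omega
      rw [this, Ultrafilter.map_id]

/-- **The next compatible ultrafilter.** -/
theorem exists_compatible_succ {j : ℕ} {U : Ultrafilter Fn} (hU : IsCompatible j U) :
    ∃ V, IsCompatible (j + 1) V ∧ V.map tetris = U := by
  obtain ⟨hUs, hUU, hUT, hTU⟩ := hU
  obtain ⟨V₀, hV₀, hV₀U⟩ := exists_lift hUs
  have hcont : Continuous fun V : Ultrafilter Fn => V + U := Ultrafilter.continuous_add_left U
  let S : Set (Ultrafilter Fn) := space (j + 1) ∩ (fun V => V.map tetris) ⁻¹' {U}
  have hS : IsClosed S := (isClosed_space _).inter (isClosed_singleton.preimage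
    ((ultrafilterBasis_is_basis.continuous_iff (f := fun V : Ultrafilter Fn => V.map tetris)).2 <|
      Set.forall_mem_range.2 fun s =>
      ultrafilter_isOpen_basic (tetris ⁻¹' s)))
  have hmax : max (j + 1) j = j + 1 := max_eq_left (Nat.le_succ j)
  have hSadd : ∀ V ∈ S, ∀ W ∈ S, V + W ∈ S := fun V hV W hW => by
    refine ⟨?_, ?_⟩
    · simpa using add_mem_space hV.1 hW.1
    · show (V + W).map tetris = U
      rw [map_tetris_add hV.1 hW.1, show V.map tetris = U from hV.2,
        show W.map tetris = U from hW.2, hUU]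
  have hSU : ∀ V ∈ S, V + U ∈ S := fun V hV => by
    refine ⟨?_, ?_⟩
    · exact hmax ▸ add_mem_space hV.1 hUs
    · show (V + U).map tetris = U
      rw [map_tetris_add hV.1 hUs, show V.map tetris = U from hV.2, hUT]
  obtain ⟨V, ⟨W, hW, rfl⟩, hVV⟩ := exists_idempotent_in_compact_add_subsemigroup
    (M := Ultrafilter Fn) Ultrafilter.continuous_add_left ((fun V => V + U) '' S)
    (Set.Nonempty.image _ ⟨V₀, hV₀, hV₀U⟩) (hS.isCompact.image hcont) (by
      rintro _ ⟨A, hA, rfl⟩ _ ⟨B, hB, rfl⟩
      refine ⟨(A + U) + B, hSadd _ (hSU _ hA) _ hB, ?_⟩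
      simp only [add_assoc])
  have hV : W + U + U = W + U := by rw [add_assoc, hUU]
  have hT : (U + (W + U)).map tetris = U := by
    rw [map_tetris_add hUs (hSU W hW).1, show (W + U).map tetris = U from (hSU W hW).2, hTU]
  refine ⟨U + (W + U), ⟨?_, ?_, ?_, ?_⟩, hT⟩
  · have := add_mem_space hUs (hSU W hW).1
    rwa [max_eq_right (Nat.le_succ j)] at this
  · calc U + (W + U) + (U + (W + U)) = U + ((W + U + U) + (W + U)) := by simp only [add_assoc]
      _ = U + (W + U) := by rw [hV, hVV]
  · rw [hT, add_assoc, hV]
  · rw [hT, ← add_assoc, hUU]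

/-- **A compatible sequence.** -/
theorem exists_sequence : ∃ W : ℕ → Ultrafilter Fn, ∀ j, IsCompatible j (W j) ∧
    (W (j + 1)).map tetris = W j := by
  choose next hnext hmap using fun (j : ℕ) (U : {U // IsCompatible j U}) =>
    exists_compatible_succ U.2
  let W : (j : ℕ) → {U // IsCompatible j U} := fun j =>
    Nat.rec ⟨pure 0, isCompatible_zero⟩ (fun j U => ⟨next j U, hnext j U⟩) j
  exact ⟨fun j => (W j).1, fun j => ⟨(W j).2, hmap j (W j)⟩⟩

/-- The absorption. -/
theorem absorb {W : ℕ → Ultrafilter Fn}
    (hW : ∀ j, IsCompatible j (W j) ∧ (W (j + 1)).map tetris = W j) {i j : ℕ} (hij : i ≤ j) :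
    W j + W i = W j ∧ W i + W j = W j := by
  induction hij with
  | refl => exact ⟨(hW i).1.2.1, (hW i).1.2.1⟩
  | @step m _ ih =>
    have h1 : W (m + 1) + W m = W (m + 1) := by
      have := (hW (m + 1)).1.2.2.1
      rwa [(hW m).2] at this
    have h2 : W m + W (m + 1) = W (m + 1) := by
      have := (hW (m + 1)).1.2.2.2
      rwa [(hW m).2] at this
    constructor
    · calc W (m + 1) + W i = W (m + 1) + (W m + W i) := by rw [← add_assoc, h1]
        _ = W (m + 1) := by rw [ih.1, h1]
    · calc W i + W (m + 1) = W i + W m + W (m + 1) := by rw [add_assoc, h2]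
        _ = W (m + 1) := by rw [ih.2, h2]

theorem map_iterate {W : ℕ → Ultrafilter Fn}
    (hW : ∀ j, IsCompatible j (W j) ∧ (W (j + 1)).map tetris = W j) (i j : ℕ) :
    (W (j + i)).map tetris^[i] = W j := by
  induction i with
  | zero => rw [Function.iterate_zero, Ultrafilter.map_id]; rfl
  | succ i ih => rw [Function.iterate_succ, ← Ultrafilter.map_map, ← Nat.add_assoc, (hW _).2, ih]

end FA.Gowers
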